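import Mathlib
import Fermat.Agent.LT.T6.H626.FamAlg

/-!
# Row LT, tower T6, leaf T6.20a.6 `F1SoftOfC626` (helper922), OFF-MAIN

Proof of the frozen leaf `H626.F1SoftOfC626` of `LT/T6/H626/AbelCut.lean` (helper626, sha256
6a4d529b): the closed form of weight `n = ±1`, `abelF1_626 c n φ`, is continuous, compactly
supported and of weight `n` on both sides.

* invariance: `det`, `rhoR` are bi-`SO(2)`-invariant, `φ(M_v(y))` depends on `(det y, rhoR y, v)`
  only (`famAlg626` + `CartanCC`), `holPart (k y) = holPart k · holPart y = holPart (y k)`;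
* continuity: `det > 0` is open and closed in `GL₂(ℝ)`; parametric integral of a jointly
  continuous integrand with uniformly compact support in `v`
  (`continuousOn_integral_of_compact_support`);
* support: `φ(M_v(y)) ≠ 0` bounds `√(det y)` from both sides and `rhoR y` from above; such `y`
  form a compact set (continuous image of a closed box of matrices).
-/

set_option autoImplicit false

open scoped Matrix ContDiff
open MeasureTheory

noncomputable section

namespace Fermat.Agent.LT.T6.H922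

open Fermat.Agent.LT.T6 Fermat.Agent.LT.T6.H626

/-! ## 1. `SO(2)`: entries, `holPart`, `det`, `rhoR` -/

theorem so2_entries922 {k : GL (Fin 2) ℝ} (hk : InSO2 k) :
    (k : Matrix (Fin 2) (Fin 2) ℝ) 1 1 = (k : Matrix (Fin 2) (Fin 2) ℝ) 0 0 ∧
    (k : Matrix (Fin 2) (Fin 2) ℝ) 0 1 = -(k : Matrix (Fin 2) (Fin 2) ℝ) 1 0 ∧
    (k : Matrix (Fin 2) (Fin 2) ℝ) 0 0 ^ 2 + (k : Matrix (Fin 2) (Fin 2) ℝ) 1 0 ^ 2 = 1 := by
  obtain ⟨h1, h2⟩ := hk
  have e00 := congrFun (congrFun h1 0) 0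
  have e11 := congrFun (congrFun h1 1) 1
  rw [Matrix.det_fin_two] at h2
  simp only [Matrix.mul_apply, Fin.sum_univ_two, Matrix.transpose_apply, Matrix.one_apply_eq]
    at e00 e11
  set a := (k : Matrix (Fin 2) (Fin 2) ℝ) 0 0
  set b := (k : Matrix (Fin 2) (Fin 2) ℝ) 0 1
  set c := (k : Matrix (Fin 2) (Fin 2) ℝ) 1 0
  set d := (k : Matrix (Fin 2) (Fin 2) ℝ) 1 1
  have hs : (a - d) ^ 2 + (b + c) ^ 2 = 0 := by nlinarith
  have h3 : a - d = 0 := by nlinarith [sq_nonneg (a - d), sq_nonneg (b + c)]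
  have h4 : b + c = 0 := by nlinarith [sq_nonneg (a - d), sq_nonneg (b + c)]
  have hd : d = a := by linarith
  have hb : b = -c := by linarith
  refine ⟨hd, hb, ?_⟩
  rw [hb] at e00
  nlinarith

theorem holPart_re922 (y : GL (Fin 2) ℝ) :
    (holPart y).re = ((y : Matrix (Fin 2) (Fin 2) ℝ) 0 0 + (y : Matrix (Fin 2) (Fin 2) ℝ) 1 1) / 2 := by
  unfold holPart
  simp

theorem holPart_im922 (y : GL (Fin 2) ℝ) :
    (holPart y).im = ((y : Matrix (Fin 2) (Fin 2) ℝ) 1 0 - (y : Matrix (Fin 2) (Fin 2) ℝ) 0 1) / 2 := by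
  unfold holPart
  simp

theorem holPart_so2_mul922 {k : GL (Fin 2) ℝ} (hk : InSO2 k) (g : GL (Fin 2) ℝ) :
    holPart (k * g) = holPart k * holPart g := by
  obtain ⟨h1, h2, -⟩ := so2_entries922 hk
  apply Complex.ext
  · rw [Complex.mul_re, holPart_re922, holPart_re922, holPart_re922, holPart_im922,
      holPart_im922]
    simp only [Matrix.GeneralLinearGroup.coe_mul, Matrix.mul_apply, Fin.sum_univ_two]
    rw [h1, h2]
    ring
  · rw [Complex.mul_im, holPart_re922, holPart_re922, holPart_im922, holPart_im922,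
      holPart_im922]
    simp only [Matrix.GeneralLinearGroup.coe_mul, Matrix.mul_apply, Fin.sum_univ_two]
    rw [h1, h2]
    ring

theorem holPart_mul_so2_922 {k : GL (Fin 2) ℝ} (hk : InSO2 k) (g : GL (Fin 2) ℝ) :
    holPart (g * k) = holPart k * holPart g := by
  obtain ⟨h1, h2, -⟩ := so2_entries922 hk
  apply Complex.ext
  · rw [Complex.mul_re, holPart_re922, holPart_re922, holPart_re922, holPart_im922,
      holPart_im922]
    simp only [Matrix.GeneralLinearGroup.coe_mul, Matrix.mul_apply, Fin.sum_univ_two]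
    rw [h1, h2]
    ring
  · rw [Complex.mul_im, holPart_re922, holPart_re922, holPart_im922, holPart_im922,
      holPart_im922]
    simp only [Matrix.GeneralLinearGroup.coe_mul, Matrix.mul_apply, Fin.sum_univ_two]
    rw [h1, h2]
    ring

theorem holPart_so2_normSq922 {k : GL (Fin 2) ℝ} (hk : InSO2 k) :
    Complex.normSq (holPart k) = 1 := by
  obtain ⟨h1, h2, h3⟩ := so2_entries922 hk
  rw [Complex.normSq_apply, holPart_re922, holPart_im922, h1, h2]
  nlinarith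

theorem holPart_so2_inv922 {k : GL (Fin 2) ℝ} (hk : InSO2 k) :
    (holPart k)⁻¹ = (starRingEnd ℂ) (holPart k) := by
  rw [Complex.inv_def, holPart_so2_normSq922 hk]
  simp

/-- `j_n (k y) = (wtChar n k)⁻¹ j_n (y)` for `n = ±1`, `k ∈ SO(2)`, and the same on the right. -/
theorem jn_so2_922 {n : ℤ} (hn : n = 1 ∨ n = -1) {k : GL (Fin 2) ℝ} (hk : InSO2 k)
    (g : GL (Fin 2) ℝ) :
    jn626 n (k * g) = (wtChar n k)⁻¹ * jn626 n g ∧ jn626 n (g * k) = (wtChar n k)⁻¹ * jn626 n g := by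
  rcases hn with rfl | rfl
  · have hw : (wtChar 1 k)⁻¹ = (starRingEnd ℂ) (holPart k) := by
      unfold wtChar
      rw [zpow_one, holPart_so2_inv922 hk]
    unfold jn626
    rw [if_pos rfl, if_pos rfl, if_pos rfl, hw, holPart_so2_mul922 hk, holPart_mul_so2_922 hk,
      map_mul]
    constructor <;> ring
  · have hw : (wtChar (-1) k)⁻¹ = holPart k := by
      unfold wtChar
      rw [zpow_neg, zpow_one, inv_inv]
    have hne : ¬ ((-1 : ℤ) = 1) := by norm_num
    unfold jn626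
    rw [if_neg hne, if_neg hne, if_neg hne, hw, holPart_so2_mul922 hk, holPart_mul_so2_922 hk]
    constructor <;> ring

theorem so2_transpose_mul922 {k : GL (Fin 2) ℝ} (hk : InSO2 k) :
    (k : Matrix (Fin 2) (Fin 2) ℝ).transpose * (k : Matrix (Fin 2) (Fin 2) ℝ) = 1 :=
  mul_eq_one_comm.mp hk.1

theorem det_so2_mul922 {k : GL (Fin 2) ℝ} (hk : InSO2 k) (g : GL (Fin 2) ℝ) :
    ((k * g : GL (Fin 2) ℝ) : Matrix (Fin 2) (Fin 2) ℝ).det
      = (g : Matrix (Fin 2) (Fin 2) ℝ).det := by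
  rw [Matrix.GeneralLinearGroup.coe_mul, Matrix.det_mul, hk.2, one_mul]

theorem det_mul_so2_922 {k : GL (Fin 2) ℝ} (hk : InSO2 k) (g : GL (Fin 2) ℝ) :
    ((g * k : GL (Fin 2) ℝ) : Matrix (Fin 2) (Fin 2) ℝ).det
      = (g : Matrix (Fin 2) (Fin 2) ℝ).det := by
  rw [Matrix.GeneralLinearGroup.coe_mul, Matrix.det_mul, hk.2, mul_one]

theorem rhoM_so2_mul922 {k : GL (Fin 2) ℝ} (hk : InSO2 k) (g : GL (Fin 2) ℝ) :
    rhoM626 ((k * g : GL (Fin 2) ℝ) : Matrix (Fin 2) (Fin 2) ℝ)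
      = rhoM626 (g : Matrix (Fin 2) (Fin 2) ℝ) := by
  unfold rhoM626
  rw [det_so2_mul922 hk, Matrix.GeneralLinearGroup.coe_mul, Matrix.transpose_mul,
    Matrix.mul_assoc, ← Matrix.mul_assoc (k : Matrix (Fin 2) (Fin 2) ℝ).transpose,
    so2_transpose_mul922 hk, Matrix.one_mul]

theorem rhoM_mul_so2_922 {k : GL (Fin 2) ℝ} (hk : InSO2 k) (g : GL (Fin 2) ℝ) :
    rhoM626 ((g * k : GL (Fin 2) ℝ) : Matrix (Fin 2) (Fin 2) ℝ)
      = rhoM626 (g : Matrix (Fin 2) (Fin 2) ℝ) := by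
  unfold rhoM626
  rw [det_mul_so2_922 hk, Matrix.GeneralLinearGroup.coe_mul, Matrix.transpose_mul,
    Matrix.mul_assoc, Matrix.trace_mul_comm, Matrix.mul_assoc, Matrix.mul_assoc, hk.1,
    Matrix.mul_one]

/-! ## 2. `φ (M_v(y))` depends on `(det y, rhoR y, v)` only -/

theorem phi_fam_congr922 (hC : H830.CartanCC) {φ : GL (Fin 2) ℂ → ℂ} (hφ : IsArchTestC φ)
    {y y' : Matrix (Fin 2) (Fin 2) ℝ} (hy : 0 < y.det) (hy' : 0 < y'.det) (hd : y.det = y'.det)
    (hr : rhoM626 y = rhoM626 y') (v : ℝ) :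
    φ (toGLC626 (famMat626 y v)) = φ (toGLC626 (famMat626 y' v)) := by
  obtain ⟨-, -, h3, h4⟩ := famAlg626 y hy v
  obtain ⟨-, -, h3', h4'⟩ := famAlg626 y' hy' v
  obtain ⟨k, k', hk, hk', he⟩ := hC (toGLC626 (famMat626 y v)) (toGLC626 (famMat626 y' v))
    (by rw [h4, h4', hd]) (by rw [h3, h3', hr])
  rw [he, hφ.right k' _ hk', hφ.left k _ hk]

/-! ## 3. Continuity into `GL₂` -/

/-- A map into `GL₂(𝕜)` is continuous on `s` if its matrix is. -/
theorem continuousOn_toGL922 {𝕜 : Type*} [NormedField 𝕜] {X : Type*} [TopologicalSpace X]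
    {s : Set X} (f : X → GL (Fin 2) 𝕜)
    (hf : ContinuousOn (fun x => (f x : Matrix (Fin 2) (Fin 2) 𝕜)) s) : ContinuousOn f s := by
  have hf' : Continuous fun x : s => (f x : Matrix (Fin 2) (Fin 2) 𝕜) :=
    continuousOn_iff_continuous_domRestrict.1 hf
  have hg : Continuous fun x : s => f x := by
    rw [Units.continuous_iff]
    refine ⟨hf', ?_⟩
    have hdet : ∀ x : s, (f x : Matrix (Fin 2) (Fin 2) 𝕜).det ≠ 0 := fun x =>
      ((Matrix.isUnit_iff_isUnit_det _).1 (f x).isUnit).ne_zero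
    have h : (fun x : s => (((f x)⁻¹ : GL (Fin 2) 𝕜) : Matrix (Fin 2) (Fin 2) 𝕜))
        = fun x : s => ((f x : Matrix (Fin 2) (Fin 2) 𝕜).det)⁻¹ •
            (f x : Matrix (Fin 2) (Fin 2) 𝕜).adjugate := by
      funext x
      rw [Matrix.coe_units_inv, Matrix.inv_def, Ring.inverse_eq_inv']
    change Continuous (fun x : s => (((f x)⁻¹ : GL (Fin 2) 𝕜) : Matrix (Fin 2) (Fin 2) 𝕜))
    rw [h]
    exact (hf'.matrix_det.inv₀ hdet).smul hf'.matrix_adjugate
  exact continuousOn_iff_continuous_domRestrict.2 hg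

/-- The element of `GL₂(ℝ)` with matrix `M` (`1` if `det M = 0`). -/
def toGLR922 (M : Matrix (Fin 2) (Fin 2) ℝ) : GL (Fin 2) ℝ :=
  if h : M.det ≠ 0 then Matrix.GeneralLinearGroup.mkOfDetNeZero M h else 1

theorem coe_toGLR922 {M : Matrix (Fin 2) (Fin 2) ℝ} (h : M.det ≠ 0) :
    ((toGLR922 M : GL (Fin 2) ℝ) : Matrix (Fin 2) (Fin 2) ℝ) = M := by
  unfold toGLR922
  rw [dif_pos h]
  rfl

theorem toGLR_coe922 (y : GL (Fin 2) ℝ) : toGLR922 (y : Matrix (Fin 2) (Fin 2) ℝ) = y := by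
  have h : (y : Matrix (Fin 2) (Fin 2) ℝ).det ≠ 0 :=
    ((Matrix.isUnit_iff_isUnit_det _).1 y.isUnit).ne_zero
  exact Units.ext (coe_toGLR922 h)

theorem continuousOn_toGLR922 : ContinuousOn toGLR922 {M | M.det ≠ 0} := by
  apply continuousOn_toGL922
  refine continuousOn_id.congr fun M hM => ?_
  exact coe_toGLR922 hM

/-- Closed boxes of matrices with determinant bounded below are compact in `GL₂(ℝ)`. -/
theorem isCompact_glBox922 (b d : ℝ) (hd : 0 < d) :
    IsCompact (toGLR922 '' {M : Matrix (Fin 2) (Fin 2) ℝ | (∀ i j, M i j ∈ Set.Icc (-b) b) ∧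
      d ≤ M.det}) := by
  have h1 : IsCompact {M : Matrix (Fin 2) (Fin 2) ℝ | ∀ i j, M i j ∈ Set.Icc (-b) b} := by
    have : {M : Matrix (Fin 2) (Fin 2) ℝ | ∀ i j, M i j ∈ Set.Icc (-b) b}
        = Set.pi Set.univ (fun _ : Fin 2 => Set.pi Set.univ (fun _ : Fin 2 => Set.Icc (-b) b)) := by
      ext M
      constructor
      · intro h i _ j _
        exact h i j
      · intro h i j
        exact h i (Set.mem_univ i) j (Set.mem_univ j)
    rw [this]
    exact isCompact_univ_pi fun _ => isCompact_univ_pi fun _ => isCompact_Icc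
  have h2 : IsClosed {M : Matrix (Fin 2) (Fin 2) ℝ | d ≤ M.det} :=
    isClosed_le continuous_const (continuous_id.matrix_det)
  have h3 : IsCompact ({M : Matrix (Fin 2) (Fin 2) ℝ | ∀ i j, M i j ∈ Set.Icc (-b) b} ∩
      {M | d ≤ M.det}) := h1.inter_right h2
  have h4 : {M : Matrix (Fin 2) (Fin 2) ℝ | (∀ i j, M i j ∈ Set.Icc (-b) b) ∧ d ≤ M.det}
      = {M : Matrix (Fin 2) (Fin 2) ℝ | ∀ i j, M i j ∈ Set.Icc (-b) b} ∩ {M | d ≤ M.det} := rfl
  rw [h4]
  refine h3.image_of_continuousOn (continuousOn_toGLR922.mono ?_)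
  intro M hM
  have : d ≤ M.det := hM.2
  exact (lt_of_lt_of_le hd this).ne'

/-! ## 4. Continuity of the Hermitian family -/

/-- The domain `det > 0` in `GL₂(ℝ) × ℝ`. -/
def posDom922 : Set (GL (Fin 2) ℝ × ℝ) := {p | 0 < (p.1 : Matrix (Fin 2) (Fin 2) ℝ).det}

theorem continuous_val_fst922 :
    Continuous fun p : GL (Fin 2) ℝ × ℝ => (p.1 : Matrix (Fin 2) (Fin 2) ℝ) :=
  Units.continuous_val.comp continuous_fst

theorem continuous_det_fst922 :
    Continuous fun p : GL (Fin 2) ℝ × ℝ => (p.1 : Matrix (Fin 2) (Fin 2) ℝ).det :=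
  continuous_val_fst922.matrix_det

theorem continuousOn_rho922 :
    ContinuousOn (fun p : GL (Fin 2) ℝ × ℝ => rhoM626 (p.1 : Matrix (Fin 2) (Fin 2) ℝ))
      posDom922 := by
  unfold rhoM626
  refine ContinuousOn.div ?_ ?_ ?_
  · exact ((continuous_val_fst922.matrix_transpose.matrix_mul
      continuous_val_fst922).matrix_trace).continuousOn
  · exact (continuous_const.mul continuous_det_fst922.abs).continuousOn
  · intro p hp
    have : 0 < (p.1 : Matrix (Fin 2) (Fin 2) ℝ).det := hp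
    have h2 : 0 < |(p.1 : Matrix (Fin 2) (Fin 2) ℝ).det| := abs_pos.2 this.ne'
    positivity

theorem continuousOn_xv922 :
    ContinuousOn (fun p : GL (Fin 2) ℝ × ℝ =>
      xv626 (rhoM626 (p.1 : Matrix (Fin 2) (Fin 2) ℝ)) p.2) posDom922 := by
  unfold xv626
  refine Real.continuous_sqrt.comp_continuousOn ?_
  exact ((continuousOn_rho922.add continuousOn_const).add
    (continuous_snd.pow 2).continuousOn).div_const 2

theorem xv_nonneg922 (ρ v : ℝ) : 0 ≤ xv626 ρ v := Real.sqrt_nonneg _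

theorem continuousOn_scal922 :
    ContinuousOn (fun p : GL (Fin 2) ℝ × ℝ =>
      famScal626 (p.1 : Matrix (Fin 2) (Fin 2) ℝ)
        (xv626 (rhoM626 (p.1 : Matrix (Fin 2) (Fin 2) ℝ)) p.2)) posDom922 := by
  unfold famScal626
  refine ContinuousOn.div ?_ ?_ ?_
  · exact (Real.continuous_sqrt.comp (Real.continuous_sqrt.comp
      continuous_det_fst922)).continuousOn
  · exact continuousOn_const.mul
      (Real.continuous_sqrt.comp_continuousOn (continuousOn_xv922.add continuousOn_const))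
  · intro p _
    have h1 : 0 < xv626 (rhoM626 (p.1 : Matrix (Fin 2) (Fin 2) ℝ)) p.2 + 1 := by
      have := xv_nonneg922 (rhoM626 (p.1 : Matrix (Fin 2) (Fin 2) ℝ)) p.2
      linarith
    have h2 := Real.sqrt_pos.2 h1
    positivity

theorem sqrt_two_det_ne922 {p : GL (Fin 2) ℝ × ℝ} (hp : p ∈ posDom922) :
    Real.sqrt (2 * (p.1 : Matrix (Fin 2) (Fin 2) ℝ).det) ≠ 0 := by
  have : 0 < (p.1 : Matrix (Fin 2) (Fin 2) ℝ).det := hp
  exact (Real.sqrt_pos.2 (by positivity)).ne'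

theorem continuousOn_h1_922 :
    ContinuousOn (fun p : GL (Fin 2) ℝ × ℝ => famH1_626 (p.1 : Matrix (Fin 2) (Fin 2) ℝ))
      posDom922 := by
  unfold famH1_626
  refine ContinuousOn.div ?_ ?_ fun p hp => sqrt_two_det_ne922 hp
  · exact ((continuous_val_fst922.matrix_elem 0 0).sub
      (continuous_val_fst922.matrix_elem 1 1)).continuousOn
  · exact (Real.continuous_sqrt.comp (continuous_const.mul continuous_det_fst922)).continuousOn

theorem continuousOn_h2_922 :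
    ContinuousOn (fun p : GL (Fin 2) ℝ × ℝ => famH2_626 (p.1 : Matrix (Fin 2) (Fin 2) ℝ))
      posDom922 := by
  unfold famH2_626
  refine ContinuousOn.div ?_ ?_ fun p hp => sqrt_two_det_ne922 hp
  · exact ((continuous_val_fst922.matrix_elem 0 1).add
      (continuous_val_fst922.matrix_elem 1 0)).continuousOn
  · exact (Real.continuous_sqrt.comp (continuous_const.mul continuous_det_fst922)).continuousOn

theorem continuousOn_famMat922 :
    ContinuousOn (fun p : GL (Fin 2) ℝ × ℝ =>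
      famMat626 (p.1 : Matrix (Fin 2) (Fin 2) ℝ) p.2) posDom922 := by
  have hs := continuousOn_scal922
  have hx := continuousOn_xv922
  have h1 := continuousOn_h1_922
  have h2 := continuousOn_h2_922
  have hv : ContinuousOn (fun p : GL (Fin 2) ℝ × ℝ => ((p.2 : ℝ) : ℂ) * Complex.I) posDom922 :=
    ((Complex.continuous_ofReal.comp continuous_snd).mul continuous_const).continuousOn
  have hA : ContinuousOn (fun p : GL (Fin 2) ℝ × ℝ =>
      Real.sqrt 2 * (xv626 (rhoM626 (p.1 : Matrix (Fin 2) (Fin 2) ℝ)) p.2 + 1)) posDom922 :=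
    continuousOn_const.mul (hx.add continuousOn_const)
  unfold famMat626
  refine ContinuousOn.smul (Complex.continuous_ofReal.comp_continuousOn hs) ?_
  refine continuousOn_pi.2 fun i => continuousOn_pi.2 fun j => ?_
  fin_cases i <;> fin_cases j
  · exact Complex.continuous_ofReal.comp_continuousOn (hA.add h1)
  · exact (Complex.continuous_ofReal.comp_continuousOn h2).sub hv
  · exact (Complex.continuous_ofReal.comp_continuousOn h2).add hv
  · exact Complex.continuous_ofReal.comp_continuousOn (hA.sub h1)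

/-- The family `(y, v) ↦ toGLC626 (M_v(y))` is continuous on `det > 0`. -/
theorem continuousOn_famGL922 :
    ContinuousOn (fun p : GL (Fin 2) ℝ × ℝ =>
      toGLC626 (famMat626 (p.1 : Matrix (Fin 2) (Fin 2) ℝ) p.2)) posDom922 := by
  apply continuousOn_toGL922
  refine continuousOn_famMat922.congr fun p hp => ?_
  exact (famAlg626 _ hp p.2).2.1

/-! ## 5. Bounds on the support -/

theorem det_ne_zeroC922 (y : GL (Fin 2) ℂ) : (y : Matrix (Fin 2) (Fin 2) ℂ).det ≠ 0 :=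
  ((Matrix.isUnit_iff_isUnit_det _).1 y.isUnit).ne_zero

theorem continuous_normDetC922 :
    Continuous fun y : GL (Fin 2) ℂ => ‖(y : Matrix (Fin 2) (Fin 2) ℂ).det‖ :=
  (Units.continuous_val.matrix_det).norm

theorem continuous_rhoC922 : Continuous rhoC := by
  unfold rhoC
  have hval : Continuous fun y : GL (Fin 2) ℂ => (y : Matrix (Fin 2) (Fin 2) ℂ) :=
    Units.continuous_val
  have h1 : Continuous fun y : GL (Fin 2) ℂ =>
      (((y : Matrix (Fin 2) (Fin 2) ℂ).conjTranspose * (y : Matrix (Fin 2) (Fin 2) ℂ)).trace).re :=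
    Complex.continuous_re.comp ((hval.matrix_conjTranspose.matrix_mul hval).matrix_trace)
  have h2 : Continuous fun y : GL (Fin 2) ℂ => 2 * ‖(y : Matrix (Fin 2) (Fin 2) ℂ).det‖ :=
    continuous_const.mul hval.matrix_det.norm
  exact h1.div h2 fun y => mul_ne_zero two_ne_zero (norm_ne_zero_iff.2 (det_ne_zeroC922 y))

/-- On the support of a test function `rhoC` is bounded and `‖det‖` is bounded from both
sides. -/
theorem supp_bounds922 {φ : GL (Fin 2) ℂ → ℂ} (hφ : IsArchTestC φ) :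
    ∃ M d₁ d₂ : ℝ, 0 < d₁ ∧ ∀ g : GL (Fin 2) ℂ, φ g ≠ 0 →
      rhoC g ≤ M ∧ d₁ ≤ ‖(g : Matrix (Fin 2) (Fin 2) ℂ).det‖ ∧
        ‖(g : Matrix (Fin 2) (Fin 2) ℂ).det‖ ≤ d₂ := by
  obtain ⟨M, hM⟩ := hφ.supp.isCompact.bddAbove_image continuous_rhoC922.continuousOn
  obtain ⟨d₂, hd₂⟩ := hφ.supp.isCompact.bddAbove_image continuous_normDetC922.continuousOn
  have hinv : Continuous fun y : GL (Fin 2) ℂ => ‖(y : Matrix (Fin 2) (Fin 2) ℂ).det‖⁻¹ :=
    continuous_normDetC922.inv₀ fun y => norm_ne_zero_iff.2 (det_ne_zeroC922 y)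
  obtain ⟨B, hB⟩ := hφ.supp.isCompact.bddAbove_image hinv.continuousOn
  have hB1 : 0 < max B 1 := lt_of_lt_of_le one_pos (le_max_right _ _)
  refine ⟨M, (max B 1)⁻¹, d₂, inv_pos.2 hB1, fun g hg => ?_⟩
  have hmem : g ∈ tsupport φ := subset_tsupport _ hg
  refine ⟨hM ⟨g, hmem, rfl⟩, ?_, hd₂ ⟨g, hmem, rfl⟩⟩
  have h1 : ‖(g : Matrix (Fin 2) (Fin 2) ℂ).det‖⁻¹ ≤ max B 1 :=
    le_trans (hB ⟨g, hmem, rfl⟩) (le_max_left _ _)
  have h2 : 0 < ‖(g : Matrix (Fin 2) (Fin 2) ℂ).det‖ := norm_pos_iff.2 (det_ne_zeroC922 g)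
  exact (inv_le_comm₀ hB1 h2).2 h1

theorem trace_sq922 (y : Matrix (Fin 2) (Fin 2) ℝ) :
    (y.transpose * y).trace = y 0 0 ^ 2 + y 0 1 ^ 2 + y 1 0 ^ 2 + y 1 1 ^ 2 := by
  rw [Matrix.trace_fin_two]
  simp only [Matrix.mul_apply, Fin.sum_univ_two, Matrix.transpose_apply]
  ring

/-- The consequences of `φ (M_v(y)) ≠ 0`. -/
theorem fam_bounds922 {φ : GL (Fin 2) ℂ → ℂ} (hφ : IsArchTestC φ) :
    ∃ V b d : ℝ, 0 < d ∧ ∀ y : Matrix (Fin 2) (Fin 2) ℝ, 0 < y.det → ∀ v : ℝ,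
      φ (toGLC626 (famMat626 y v)) ≠ 0 →
        |v| ≤ V ∧ (∀ i j, y i j ∈ Set.Icc (-b) b) ∧ d ≤ y.det := by
  obtain ⟨M, d₁, d₂, hd₁, h⟩ := supp_bounds922 hφ
  refine ⟨2 * M, 2 * d₂ * M, d₁ ^ 2, by positivity, fun y hy v hv => ?_⟩
  obtain ⟨-, -, h3, h4⟩ := famAlg626 y hy v
  obtain ⟨hM, hl, hu⟩ := h _ hv
  rw [h3] at hM
  rw [h4] at hl hu
  have hρ := one_le_rhoM626 y hy
  have hx1 := one_le_xv626 (rhoM626 y) v hρ
  have hx2 := xv_sq626 (rhoM626 y) v hρ
  have hsq : Real.sqrt y.det ^ 2 = y.det := Real.sq_sqrt hy.le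
  have hM1 : 1 ≤ M := le_trans hx1 hM
  have hd2 : 0 < d₂ := lt_of_lt_of_le hd₁ (le_trans hl hu)
  set x := xv626 (rhoM626 y) v
  set D := Real.sqrt y.det
  have hxM : x ^ 2 ≤ M ^ 2 := pow_le_pow_left₀ (by linarith) hM 2
  have hv2 : v ^ 2 ≤ (2 * M) ^ 2 := by nlinarith
  have hρM : rhoM626 y ≤ 2 * M ^ 2 := by nlinarith [sq_nonneg v]
  have hDl : d₁ ^ 2 ≤ y.det := by
    rw [← hsq]
    exact pow_le_pow_left₀ hd₁.le hl 2
  have hDu : y.det ≤ d₂ ^ 2 := by
    rw [← hsq]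
    exact pow_le_pow_left₀ (Real.sqrt_nonneg _) hu 2
  have htr : (y.transpose * y).trace = 2 * y.det * rhoM626 y := by
    unfold rhoM626
    rw [abs_of_pos hy]
    field_simp
  have htr2 : y 0 0 ^ 2 + y 0 1 ^ 2 + y 1 0 ^ 2 + y 1 1 ^ 2 ≤ (2 * d₂ * M) ^ 2 := by
    rw [← trace_sq922, htr]
    have e1 : 2 * y.det * rhoM626 y ≤ 2 * d₂ ^ 2 * (2 * M ^ 2) := by
      have : 0 ≤ rhoM626 y := by linarith
      calc 2 * y.det * rhoM626 y ≤ 2 * d₂ ^ 2 * rhoM626 y := by
            apply mul_le_mul_of_nonneg_right _ this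
            linarith
        _ ≤ 2 * d₂ ^ 2 * (2 * M ^ 2) := by
            apply mul_le_mul_of_nonneg_left hρM
            positivity
    calc 2 * y.det * rhoM626 y ≤ 2 * d₂ ^ 2 * (2 * M ^ 2) := e1
      _ = (2 * d₂ * M) ^ 2 := by ring
  have hb0 : 0 ≤ 2 * d₂ * M := by positivity
  have hent : ∀ t : ℝ, t ^ 2 ≤ (2 * d₂ * M) ^ 2 → t ∈ Set.Icc (-(2 * d₂ * M)) (2 * d₂ * M) := by
    intro t ht
    have := abs_le_of_sq_le_sq' ht hb0
    exact ⟨this.1, this.2⟩
  refine ⟨?_, ?_, hDl⟩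
  · have := abs_le_of_sq_le_sq' hv2 (by positivity)
    exact abs_le.2 ⟨this.1, this.2⟩
  · intro i j
    apply hent
    fin_cases i <;> fin_cases j <;>
      simp only [Fin.zero_eta, Fin.mk_one, Fin.isValue] <;>
      nlinarith [sq_nonneg (y 0 0), sq_nonneg (y 0 1), sq_nonneg (y 1 0), sq_nonneg (y 1 1)]

/-! ## 6. The integral `∫ φ (M_v(y)) dv` -/

/-- `I(y) = ∫ φ (M_v(y)) dv`. -/
def famInt922 (φ : GL (Fin 2) ℂ → ℂ) (y : GL (Fin 2) ℝ) : ℂ :=
  ∫ v : ℝ, φ (toGLC626 (famMat626 (y : Matrix (Fin 2) (Fin 2) ℝ) v))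

/-- The domain `det > 0` in `GL₂(ℝ)`. -/
def posSet922 : Set (GL (Fin 2) ℝ) := {y | 0 < (y : Matrix (Fin 2) (Fin 2) ℝ).det}

theorem continuous_detR922 :
    Continuous fun y : GL (Fin 2) ℝ => (y : Matrix (Fin 2) (Fin 2) ℝ).det :=
  Units.continuous_val.matrix_det

theorem isOpen_posSet922 : IsOpen posSet922 :=
  isOpen_lt continuous_const continuous_detR922

theorem continuousOn_famInt922 {φ : GL (Fin 2) ℂ → ℂ} (hφ : IsArchTestC φ) :
    ContinuousOn (famInt922 φ) posSet922 := by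
  obtain ⟨V, b, d, -, h⟩ := fam_bounds922 hφ
  unfold famInt922
  refine continuousOn_integral_of_compact_support (k := Set.Icc (-V) V) isCompact_Icc ?_ ?_
  · have h1 : ContinuousOn (fun p : GL (Fin 2) ℝ × ℝ =>
        φ (toGLC626 (famMat626 (p.1 : Matrix (Fin 2) (Fin 2) ℝ) p.2))) (posSet922 ×ˢ Set.univ) :=
      hφ.cont.comp_continuousOn (continuousOn_famGL922.mono fun p hp => hp.1)
    exact h1
  · intro y v hy hv
    by_contra hne
    have := (h _ hy v hne).1
    exact hv ⟨(abs_le.1 this).1, (abs_le.1 this).2⟩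

theorem famInt_so2_mul922 (hC : H830.CartanCC) {φ : GL (Fin 2) ℂ → ℂ} (hφ : IsArchTestC φ)
    {k : GL (Fin 2) ℝ} (hk : InSO2 k) {g : GL (Fin 2) ℝ}
    (hg : 0 < (g : Matrix (Fin 2) (Fin 2) ℝ).det) :
    famInt922 φ (k * g) = famInt922 φ g ∧ famInt922 φ (g * k) = famInt922 φ g := by
  unfold famInt922
  constructor
  · refine integral_congr_ae (Filter.Eventually.of_forall fun v => ?_)
    exact phi_fam_congr922 hC hφ (by rw [det_so2_mul922 hk]; exact hg) hg
      (det_so2_mul922 hk g) (rhoM_so2_mul922 hk g) v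
  · refine integral_congr_ae (Filter.Eventually.of_forall fun v => ?_)
    exact phi_fam_congr922 hC hφ (by rw [det_mul_so2_922 hk]; exact hg) hg
      (det_mul_so2_922 hk g) (rhoM_mul_so2_922 hk g) v

/-! ## 7. The closed form of weight `±1` -/

theorem abelF1_eq922 (c : ℂ) (n : ℤ) (φ : GL (Fin 2) ℂ → ℂ) (y : GL (Fin 2) ℝ) :
    abelF1_626 c n φ y =
      if 0 < (y : Matrix (Fin 2) (Fin 2) ℝ).det then
        ((Real.sqrt 2 / 4 : ℝ) : ℂ) * c *
          (jn626 n y /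
            ((Real.sqrt (y : Matrix (Fin 2) (Fin 2) ℝ).det *
              (rhoM626 (y : Matrix (Fin 2) (Fin 2) ℝ) + 1) : ℝ) : ℂ)) * famInt922 φ y
      else 0 := rfl

theorem continuousOn_rhoR922 :
    ContinuousOn (fun y : GL (Fin 2) ℝ => rhoM626 (y : Matrix (Fin 2) (Fin 2) ℝ))
      posSet922 := by
  have hval : Continuous fun y : GL (Fin 2) ℝ => (y : Matrix (Fin 2) (Fin 2) ℝ) :=
    Units.continuous_val
  unfold rhoM626
  refine ContinuousOn.div ?_ ?_ ?_
  · exact ((hval.matrix_transpose.matrix_mul hval).matrix_trace).continuousOn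
  · exact (continuous_const.mul continuous_detR922.abs).continuousOn
  · intro y hy
    have : 0 < (y : Matrix (Fin 2) (Fin 2) ℝ).det := hy
    have h2 : 0 < |(y : Matrix (Fin 2) (Fin 2) ℝ).det| := abs_pos.2 this.ne'
    positivity

theorem continuous_holPart922 : Continuous holPart := by
  have he : ∀ i j : Fin 2, Continuous fun y : GL (Fin 2) ℝ =>
      (y : Matrix (Fin 2) (Fin 2) ℝ) i j := fun i j => Units.continuous_val.matrix_elem i j
  unfold holPart
  exact ((Complex.continuous_ofReal.comp ((he 0 0).add (he 1 1))).add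
    ((Complex.continuous_ofReal.comp ((he 1 0).sub (he 0 1))).mul continuous_const)).div_const 2

theorem continuous_jn922 (n : ℤ) : Continuous (jn626 n) := by
  unfold jn626
  by_cases h : n = 1
  · simp only [h, if_true]
    exact continuous_const.mul (Complex.continuous_conj.comp continuous_holPart922)
  · simp only [h, if_false]
    exact continuous_const.mul continuous_holPart922

theorem continuous_abelF1_922 (c : ℂ) (n : ℤ) {φ : GL (Fin 2) ℂ → ℂ} (hφ : IsArchTestC φ) :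
    Continuous (abelF1_626 c n φ) := by
  have hrho : ContinuousOn (fun y : GL (Fin 2) ℝ => rhoM626 (y : Matrix (Fin 2) (Fin 2) ℝ))
      posSet922 := continuousOn_rhoR922
  have hden : ContinuousOn (fun y : GL (Fin 2) ℝ =>
      ((Real.sqrt (y : Matrix (Fin 2) (Fin 2) ℝ).det *
        (rhoM626 (y : Matrix (Fin 2) (Fin 2) ℝ) + 1) : ℝ) : ℂ)) posSet922 :=
    Complex.continuous_ofReal.comp_continuousOn
      ((Real.continuous_sqrt.comp continuous_detR922).continuousOn.mul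
        (hrho.add continuousOn_const))
  have hden0 : ∀ y ∈ posSet922, ((Real.sqrt (y : Matrix (Fin 2) (Fin 2) ℝ).det *
        (rhoM626 (y : Matrix (Fin 2) (Fin 2) ℝ) + 1) : ℝ) : ℂ) ≠ 0 := by
    intro y hy
    have h1 : 0 < Real.sqrt (y : Matrix (Fin 2) (Fin 2) ℝ).det := Real.sqrt_pos.2 hy
    have h2 := one_le_rhoM626 _ hy
    have h3 : 0 < Real.sqrt (y : Matrix (Fin 2) (Fin 2) ℝ).det *
        (rhoM626 (y : Matrix (Fin 2) (Fin 2) ℝ) + 1) := by positivity
    exact_mod_cast h3.ne'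
  have hg : ContinuousOn (fun y : GL (Fin 2) ℝ =>
      ((Real.sqrt 2 / 4 : ℝ) : ℂ) * c *
        (jn626 n y /
          ((Real.sqrt (y : Matrix (Fin 2) (Fin 2) ℝ).det *
            (rhoM626 (y : Matrix (Fin 2) (Fin 2) ℝ) + 1) : ℝ) : ℂ)) * famInt922 φ y)
      posSet922 :=
    (continuousOn_const.mul ((continuous_jn922 n).continuousOn.div hden hden0)).mul
      (continuousOn_famInt922 hφ)
  rw [continuous_iff_continuousAt]
  intro y
  by_cases hy : 0 < (y : Matrix (Fin 2) (Fin 2) ℝ).det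
  · have hnh : posSet922 ∈ nhds y := isOpen_posSet922.mem_nhds hy
    refine (hg.continuousAt hnh).congr ?_
    filter_upwards [hnh] with z hz
    have hz' : 0 < (z : Matrix (Fin 2) (Fin 2) ℝ).det := hz
    rw [abelF1_eq922, if_pos hz']
  · have hne : (y : Matrix (Fin 2) (Fin 2) ℝ).det ≠ 0 :=
      ((Matrix.isUnit_iff_isUnit_det _).1 y.isUnit).ne_zero
    have hlt : (y : Matrix (Fin 2) (Fin 2) ℝ).det < 0 :=
      lt_of_le_of_ne (not_lt.1 hy) hne
    have hopen : IsOpen {z : GL (Fin 2) ℝ | (z : Matrix (Fin 2) (Fin 2) ℝ).det < 0} :=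
      isOpen_lt continuous_detR922 continuous_const
    have hnh : {z : GL (Fin 2) ℝ | (z : Matrix (Fin 2) (Fin 2) ℝ).det < 0} ∈ nhds y :=
      hopen.mem_nhds hlt
    refine (continuousAt_const (y := (0 : ℂ))).congr ?_
    filter_upwards [hnh] with z hz
    have hz' : ¬ 0 < (z : Matrix (Fin 2) (Fin 2) ℝ).det := not_lt.2 (le_of_lt hz)
    rw [abelF1_eq922, if_neg hz']

theorem hasCompactSupport_abelF1_922 (c : ℂ) (n : ℤ) {φ : GL (Fin 2) ℂ → ℂ}
    (hφ : IsArchTestC φ) : HasCompactSupport (abelF1_626 c n φ) := by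
  obtain ⟨V, b, d, hd, h⟩ := fam_bounds922 hφ
  refine HasCompactSupport.intro (isCompact_glBox922 b d hd) fun y hy => ?_
  by_contra hne
  have hpos : 0 < (y : Matrix (Fin 2) (Fin 2) ℝ).det := abelF1_pos626 c n φ y hne
  have hI : famInt922 φ y ≠ 0 := by
    intro h0
    apply hne
    rw [abelF1_eq922, if_pos hpos, h0, mul_zero]
  have hex : ∃ v : ℝ, φ (toGLC626 (famMat626 (y : Matrix (Fin 2) (Fin 2) ℝ) v)) ≠ 0 := by
    by_contra hno
    apply hI
    unfold famInt922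
    have : (fun v : ℝ => φ (toGLC626 (famMat626 (y : Matrix (Fin 2) (Fin 2) ℝ) v)))
        = fun _ => 0 := by
      funext v
      by_contra hv
      exact hno ⟨v, hv⟩
    rw [this, integral_zero]
  obtain ⟨v, hv⟩ := hex
  obtain ⟨-, h2, h3⟩ := h _ hpos v hv
  exact hy ⟨(y : Matrix (Fin 2) (Fin 2) ℝ), ⟨h2, h3⟩, toGLR_coe922 y⟩

theorem weight_abelF1_922 (hC : H830.CartanCC) (c : ℂ) {n : ℤ} (hn : n = 1 ∨ n = -1)
    {φ : GL (Fin 2) ℂ → ℂ} (hφ : IsArchTestC φ) (k g : GL (Fin 2) ℝ) (hk : InSO2 k) :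
    abelF1_626 c n φ (k * g) = (wtChar n k)⁻¹ * abelF1_626 c n φ g ∧
      abelF1_626 c n φ (g * k) = (wtChar n k)⁻¹ * abelF1_626 c n φ g := by
  by_cases hg : 0 < (g : Matrix (Fin 2) (Fin 2) ℝ).det
  · have hkg : 0 < ((k * g : GL (Fin 2) ℝ) : Matrix (Fin 2) (Fin 2) ℝ).det := by
      rw [det_so2_mul922 hk]; exact hg
    have hgk : 0 < ((g * k : GL (Fin 2) ℝ) : Matrix (Fin 2) (Fin 2) ℝ).det := by
      rw [det_mul_so2_922 hk]; exact hg
    obtain ⟨hI1, hI2⟩ := famInt_so2_mul922 hC hφ hk hg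
    obtain ⟨hj1, hj2⟩ := jn_so2_922 hn hk g
    constructor
    · rw [abelF1_eq922, abelF1_eq922, if_pos hkg, if_pos hg, hI1, hj1, det_so2_mul922 hk,
        rhoM_so2_mul922 hk]
      ring
    · rw [abelF1_eq922, abelF1_eq922, if_pos hgk, if_pos hg, hI2, hj2, det_mul_so2_922 hk,
        rhoM_mul_so2_922 hk]
      ring
  · have hkg : ¬ 0 < ((k * g : GL (Fin 2) ℝ) : Matrix (Fin 2) (Fin 2) ℝ).det := by
      rw [det_so2_mul922 hk]; exact hg
    have hgk : ¬ 0 < ((g * k : GL (Fin 2) ℝ) : Matrix (Fin 2) (Fin 2) ℝ).det := by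
      rw [det_mul_so2_922 hk]; exact hg
    constructor
    · rw [abelF1_eq922, abelF1_eq922, if_neg hkg, if_neg hg, mul_zero]
    · rw [abelF1_eq922, abelF1_eq922, if_neg hgk, if_neg hg, mul_zero]

/-- **T6.20a.6 F1-SOFT** (`H626.F1SoftOfC626`, verbatim). -/
theorem f1SoftOfC922 : F1SoftOfC626 := by
  intro hC c n hn φ hφ
  exact ⟨continuous_abelF1_922 c n hφ, hasCompactSupport_abelF1_922 c n hφ,
    fun k g hk => (weight_abelF1_922 hC c hn hφ k g hk).1,
    fun k g hk => (weight_abelF1_922 hC c hn hφ k g hk).2⟩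

end Fermat.Agent.LT.T6.H922

end
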